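/-
MAZ free layer, brick F-E2ℓ (helper24), part 1: THE `q`-SERIES INPUT.

Over any commutative ring `R`, `u = Δ(q^p)/Δ(q) = q^(p-1) (1 + 24 q + ⋯)`, hence
`u ^ K = q^(K (p-1)) (1 + 24 K q + ⋯)`.  In characteristic `ℓ ≥ 5` an `ℓ`-th power of a Laurent
series lives in `k((q^ℓ))` (`KronCong24.pow_char`), so for `ℓ ∣ p - 1` and `ℓ ∤ K` the series `u ^ K`
is not a constant times an `ℓ`-th power:

* `coeff_uq_pow`          : the coefficient of `q^(K (p - 1) + 1)` in `u ^ K` is `24 K`;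
* `uq_pow_ne_C_mul_pow`   : `u ^ K ≠ c · x ^ ℓ` in `k((q))`.
-/
import Mathlib
import Fermat.Agent.IG.PR.Interface20
import Fermat.Agent.ES.KRON.KronCong24
import Fermat.Agent.RED.BASE.CuspExpT11

set_option autoImplicit false

open ModularCurve HahnSeries

noncomputable section

namespace Fermat.Agent.MAZ.OggL24

open Fermat.Agent.IG.PR.Interface20

/-! ### the first coefficients of `∏ (1 - q^n)^(±24)` -/

theorem coeff_one_dedekindEtaUnit : PowerSeries.coeff 1 dedekindEtaUnit = -24 := by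
  rw [dedekindEtaUnit, PowerSeries.coeff_one_pow,
    Fermat.Agent.RED.BASE.CuspExpT11.coeff_one_etaProd, constantCoeff_etaProd]
  norm_num

theorem coeff_one_dedekindEtaUnitInv : PowerSeries.coeff 1 dedekindEtaUnitInv = 24 := by
  have h := congrArg (PowerSeries.coeff 1) dedekindEtaUnit_mul_inv
  rw [PowerSeries.coeff_one_mul, constantCoeff_dedekindEtaUnitInv, constantCoeff_dedekindEtaUnit,
    coeff_one_dedekindEtaUnit, PowerSeries.coeff_one] at h
  simp only [one_ne_zero, if_false] at h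
  linarith

section Ring

variable (R : Type*) [CommRing R]

/-- `∏ (1 - q^n)^24` over `R`. -/
def etaR : PowerSeries R := dedekindEtaUnit.map (Int.castRingHom R)

/-- `∏ (1 - q^n)^(-24)` over `R`. -/
def etaInvR : PowerSeries R := dedekindEtaUnitInv.map (Int.castRingHom R)

theorem constantCoeff_etaR : PowerSeries.constantCoeff (etaR R) = 1 := by
  rw [etaR, ← PowerSeries.coeff_zero_eq_constantCoeff, PowerSeries.coeff_map,
    PowerSeries.coeff_zero_eq_constantCoeff, constantCoeff_dedekindEtaUnit, map_one]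

theorem constantCoeff_etaInvR : PowerSeries.constantCoeff (etaInvR R) = 1 := by
  rw [etaInvR, ← PowerSeries.coeff_zero_eq_constantCoeff, PowerSeries.coeff_map,
    PowerSeries.coeff_zero_eq_constantCoeff, constantCoeff_dedekindEtaUnitInv, map_one]

theorem coeff_one_etaInvR : PowerSeries.coeff 1 (etaInvR R) = 24 := by
  rw [etaInvR, PowerSeries.coeff_map, coeff_one_dedekindEtaUnitInv]
  simp

variable (p : ℕ) [hp : NeZero p]

/-- The power series `w` with `u = q^(p-1) w`. -/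
def wR : PowerSeries R := (etaR R).expand p hp.ne * etaInvR R

theorem constantCoeff_wR : PowerSeries.constantCoeff (wR R p) = 1 := by
  rw [wR, map_mul, PowerSeries.constantCoeff_expand, constantCoeff_etaR, constantCoeff_etaInvR,
    mul_one]

theorem coeff_one_wR (h2 : 2 ≤ p) : PowerSeries.coeff 1 (wR R p) = 24 := by
  have hnd : ¬ p ∣ 1 := fun h => by
    have := Nat.le_of_dvd one_pos h
    omega
  rw [wR, PowerSeries.coeff_one_mul, PowerSeries.coeff_expand_of_not_dvd _ _ _ hnd,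
    PowerSeries.constantCoeff_expand, constantCoeff_etaR, constantCoeff_etaInvR, coeff_one_etaInvR]
  ring

/-- `u = q^(p-1) · w`. -/
theorem uq_eq : uq R p = HahnSeries.single ((p : ℤ) - 1) (1 : R) *
    HahnSeries.ofPowerSeries ℤ R (wR R p) := by
  have hs : ((p : ℤ) * 1 + -1) = (p : ℤ) - 1 := by ring
  rw [uq, deltaq, deltaqInv, map_mul, qExpand_single,
    Fermat.Agent.ES.KRON.KronCong24.qExpand_ofPowerSeries, wR, etaR, etaInvR, map_mul,
    mul_mul_mul_comm, HahnSeries.single_mul_single, hs, mul_one]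

/-- `u ^ K = q^(K (p-1)) · w ^ K`. -/
theorem uq_pow_eq (K : ℕ) : uq R p ^ K = HahnSeries.single ((K : ℤ) * ((p : ℤ) - 1)) (1 : R) *
    HahnSeries.ofPowerSeries ℤ R (wR R p ^ K) := by
  rw [uq_eq, mul_pow, HahnSeries.single_pow, one_pow, nsmul_eq_mul, map_pow]

/-- The coefficient of `q^(K (p-1) + 1)` in `u ^ K` is `24 K`. -/
theorem coeff_uq_pow (h2 : 2 ≤ p) (K : ℕ) :
    (uq R p ^ K).coeff ((K : ℤ) * ((p : ℤ) - 1) + 1) = 24 * (K : R) := by
  rw [uq_pow_eq, add_comm, HahnSeries.coeff_single_mul_add, one_mul]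
  have h1 : (1 : ℤ) = ((1 : ℕ) : ℤ) := by norm_num
  rw [h1, HahnSeries.ofPowerSeries_apply_coeff, PowerSeries.coeff_one_pow, coeff_one_wR R p h2,
    constantCoeff_wR, one_pow, mul_one]
  ring

end Ring

/-! ### characteristic `ℓ` -/

section CharL

variable {k : Type*} [Field k] (ℓ : ℕ) [hℓ : Fact ℓ.Prime] [CharP k ℓ]

theorem not_dvd_twentyfour (h5 : 5 ≤ ℓ) : ¬ ℓ ∣ 24 := by
  intro hd
  have h24 : (24 : ℕ) = 2 ^ 3 * 3 := by norm_num
  rw [h24] at hd
  rcases (Nat.Prime.dvd_mul hℓ.out).mp hd with h | h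
  · have := Nat.le_of_dvd (by norm_num) (hℓ.out.dvd_of_dvd_pow h)
    omega
  · have := Nat.le_of_dvd (by norm_num) h
    omega

/-- **The `q`-series input of (E2ℓ).** In characteristic `ℓ ≥ 5`, `ℓ ∣ p - 1`, `ℓ ∤ K`: the series
`(Δ(q^p)/Δ(q)) ^ K` is not a constant times an `ℓ`-th power. -/
theorem uq_pow_ne_C_mul_pow (h5 : 5 ≤ ℓ) (p : ℕ) [NeZero p] (h2 : 2 ≤ p) (hℓp : ℓ ∣ p - 1)
    (K : ℕ) (hK : ¬ ℓ ∣ K) (c : k) (x : LaurentSeries k) :
    uq k p ^ K ≠ HahnSeries.C c * x ^ ℓ := by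
  intro h
  have hnd : ¬ ((ℓ : ℤ) ∣ (K : ℤ) * ((p : ℤ) - 1) + 1) := by
    intro hd
    have h1 : (ℓ : ℤ) ∣ (p : ℤ) - 1 := by
      have : ((p - 1 : ℕ) : ℤ) = (p : ℤ) - 1 := by
        rw [Nat.cast_sub (by omega : 1 ≤ p), Nat.cast_one]
      rw [← this]
      exact_mod_cast hℓp
    have h3 : (ℓ : ℤ) ∣ 1 := by
      have := dvd_sub hd (Dvd.dvd.mul_left h1 (K : ℤ))
      simpa using this
    have h4 : ℓ ∣ 1 := by exact_mod_cast h3
    have := Nat.le_of_dvd one_pos h4
    omega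
  have h1 := congrArg (fun y : LaurentSeries k => y.coeff ((K : ℤ) * ((p : ℤ) - 1) + 1)) h
  beta_reduce at h1
  rw [coeff_uq_pow k p h2 K, Fermat.Agent.ES.KRON.KronCong24.pow_char, HahnSeries.C_mul_eq_smul,
    HahnSeries.coeff_smul, qExpand_coeff_of_not_dvd _ _ hnd, smul_zero] at h1
  have h24K : ((24 * K : ℕ) : k) = 0 := by
    rw [Nat.cast_mul]
    exact_mod_cast h1
  rw [CharP.cast_eq_zero_iff k ℓ] at h24K
  rcases (Nat.Prime.dvd_mul hℓ.out).mp h24K with h | h
  · exact not_dvd_twentyfour ℓ h5 h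
  · exact hK h

end CharL

end Fermat.Agent.MAZ.OggL24
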