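/-
MAZ free layer, brick F-E2ℓ (helper24), part 2: THE CUSPIDAL CLASS MODULO `ℓ`.

`p` prime, `ℓ ≥ 5` prime with `ℓ ∣ p - 1`, `A ≤ ℚbar` a valuation subring over `ℓ`, and the frozen
hypothesis `ReductionInputsModL A p`.  Then the `ℓ`-part of the cuspidal class survives reduction:

* `red_mem_fullC`          : the reduction of an `A`-integral element of `Fbar N` with nonzero reduction
                             lies in `F~ = modularFunctionFieldFullC k N` (from `PrincipalGeneratedByIntegral`);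
* `red_nsmul_c0_ne_zero`   : `K' (p - 1) = ℓ m K`, `ℓ ∤ K'`  ⇒  `red (K • c₀) ≠ 0`;
* `dvd_of_red_nsmul_c0`    : `red (K • c₀) = 0 ⇒ ℓ ∣ K`;
* `red_c0_lpart`           : `ℓ ∣ n = (p-1)/gcd(p-1,12)` ⇒ `red ((n/ℓ) • c₀) ≠ 0`   **(E2ℓ)**.

Proof: if `K r_*((∞)-(0)) = div g~` then `u~ ^ K'` and `(g~ ^ m) ^ ℓ` have the same divisor on the special
fibre (`u = Δ(q^p)/Δ(q)`, `div u = (p-1)((∞)-(0))` by `Ogg24.ord_uP_eq`), hence agree up to a constant
(`ConstViaR20.exists_const_of_ord_eq`, after writing `g~` as a ratio of reductions, `LiftRatio2`);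
but `u~ ^ K' = q^(K'(p-1)) (1 + 24 K' q + ⋯)` is not a constant times an `ℓ`-th power
(`QSeries.uq_pow_ne_C_mul_pow`).
-/
import Mathlib
import Fermat.Agent.MAZ.Ogg24.Main
import Fermat.Agent.MAZ.OggL24.QSeries
import Fermat.Agent.RED.TOP.S18Top20
import Fermat.Agent.ES.KRON.KronInst10

set_option autoImplicit false
set_option synthInstance.maxHeartbeats 400000
set_option linter.unusedSectionVars false

noncomputable section

open HahnSeries IntermediateField AlgebraicCurve ModularCurve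

namespace Fermat.Agent.MAZ.OggL24

open Fermat.Agent.X0 Fermat.Agent.X0.FF
open Fermat.Agent.RED.TOP Fermat.Agent.RED.TOP.ConstViaR20 Fermat.Agent.RED.TOP.S18Top20
open Fermat.Agent.MAZ.HeckeCusp89 Fermat.Agent.MAZ.Ogg24
open Fermat.Agent.IG.PR.Interface20

local notation "Qbar" => AlgebraicClosure ℚ

/-! ### generalities -/

theorem coeffMap_subtype_inj {L : Type*} [Field L] {A : ValuationSubring L}
    {x y : LaurentSeries A} (h : coeffMap A.subtype x = coeffMap A.subtype y) : x = y := by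
  ext n
  have h1 := congrArg (fun z : LaurentSeries L => z.coeff n) h
  simp only [coeffMap_coeff] at h1
  exact h1

section RedMem

variable (N : ℕ) [NeZero N] (A : ValuationSubring Qbar)

/-- **The Gauss ring is everything.**  Under `PrincipalGeneratedByIntegral`, the reduction of every
`A`-integral element of `Fbar N` with nonzero reduction lies in the special-fibre function field. -/
theorem red_mem_fullC (hgen : PrincipalGeneratedByIntegral A (IsLocalRing.residue A) N)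
    (Y : LaurentSeries A) (hY : coeffMap A.subtype Y ∈ modularFunctionFieldBar N)
    (hY0 : coeffMap (IsLocalRing.residue A) Y ≠ 0) :
    coeffMap (IsLocalRing.residue A) Y ∈
      modularFunctionFieldFullC (IsLocalRing.ResidueField A) N := by
  have hdiv := FbarFacts20.hasPrincipalDivisors_bar N
  have hy0 : (⟨_, hY⟩ : modularFunctionFieldBar N) ≠ 0 := bar_ne_zero hY hY0
  obtain ⟨DY, hDY, -⟩ := hdiv.exists_divisor _ hy0
  have hprin : DY ∈ Divisor.principal (K := Qbar) (F := modularFunctionFieldBar N) :=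
    ⟨_, hy0, hDY⟩
  obtain ⟨Y₁, Y₂, h₁, h₂, hk₁, hk₂, h0₁, h0₂, hord⟩ := goodRep_of_mem_closure (hgen hprin)
  have hy₁ : (⟨_, h₁⟩ : modularFunctionFieldBar N) ≠ 0 := bar_ne_zero h₁ h0₁
  have hy₂ : (⟨_, h₂⟩ : modularFunctionFieldBar N) ≠ 0 := bar_ne_zero h₂ h0₂
  -- `y y₂ / y₁` has trivial divisor, hence is a constant
  have hf : ∀ v : Place Qbar (modularFunctionFieldBar N),
      0 ≤ v.ord ((⟨_, hY⟩ : modularFunctionFieldBar N) * ⟨_, h₂⟩ * (⟨_, h₁⟩)⁻¹) := by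
    intro v
    rw [v.ord_mul (mul_ne_zero hy0 hy₂) (inv_ne_zero hy₁), v.ord_mul hy0 hy₂, v.ord_inv,
      ← hDY v, hord v]
    linarith
  obtain ⟨c, hc⟩ := Fermat.Agent.RR.LSpace.eq_algebraMap_of_forall_ord_nonneg
    (Fermat.Agent.RR.LHypGen.lHyp_of_isGen (FbarFacts20.isGen_j N)) hf
  have hrel : (⟨_, hY⟩ : modularFunctionFieldBar N) * ⟨_, h₂⟩ =
      algebraMap Qbar (modularFunctionFieldBar N) c * ⟨_, h₁⟩ := by
    rw [← hc, inv_mul_cancel_right₀ hy₁]
  have hrelS : coeffMap A.subtype (Y * Y₂) = HahnSeries.C c * coeffMap A.subtype Y₁ := by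
    have h1 := congrArg (fun z : modularFunctionFieldBar N => (z : LaurentSeries Qbar)) hrel
    beta_reduce at h1
    rw [map_mul]
    refine h1.trans ?_
    show algebraMap Qbar (LaurentSeries Qbar) c * coeffMap A.subtype Y₁ = _
    rw [algebraMap_laurentSeries_eq_single, HahnSeries.C_apply]
  have hc0 : c ≠ 0 := by
    rintro rfl
    rw [map_zero, zero_mul] at hrel
    exact mul_ne_zero hy0 hy₂ hrel
  rcases A.mem_or_inv_mem c with hcA | hcA
  · -- `c ∈ A`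
    have hCa : coeffMap A.subtype (HahnSeries.C (⟨c, hcA⟩ : A)) = HahnSeries.C c :=
      ConstViaR20.coeffMap_C _ _
    have h2 : Y * Y₂ = HahnSeries.C (⟨c, hcA⟩ : A) * Y₁ := by
      apply coeffMap_subtype_inj
      rw [hrelS, map_mul, hCa]
    have h3 := congrArg (coeffMap (IsLocalRing.residue A)) h2
    rw [map_mul, map_mul, ConstViaR20.coeffMap_C] at h3
    have h4 : coeffMap (IsLocalRing.residue A) Y =
        HahnSeries.C (IsLocalRing.residue A ⟨c, hcA⟩) * coeffMap (IsLocalRing.residue A) Y₁ *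
          (coeffMap (IsLocalRing.residue A) Y₂)⁻¹ := by
      rw [← h3, mul_inv_cancel_right₀ h0₂]
    rw [h4]
    exact mul_mem (mul_mem (C_mem_fullC _) hk₁) (inv_mem hk₂)
  · -- `c⁻¹ ∈ A`
    have hCa : coeffMap A.subtype (HahnSeries.C (⟨c⁻¹, hcA⟩ : A)) = HahnSeries.C c⁻¹ :=
      ConstViaR20.coeffMap_C _ _
    have hCC : (HahnSeries.C c⁻¹ : LaurentSeries Qbar) * HahnSeries.C c = 1 := by
      rw [← map_mul, inv_mul_cancel₀ hc0, map_one]
    have h2 : HahnSeries.C (⟨c⁻¹, hcA⟩ : A) * (Y * Y₂) = Y₁ := by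
      apply coeffMap_subtype_inj
      rw [map_mul, hrelS, hCa, ← mul_assoc, hCC, one_mul]
    have h3 := congrArg (coeffMap (IsLocalRing.residue A)) h2
    rw [map_mul, map_mul, ConstViaR20.coeffMap_C] at h3
    have hC0 : (HahnSeries.C (IsLocalRing.residue A ⟨c⁻¹, hcA⟩) :
        LaurentSeries (IsLocalRing.ResidueField A)) ≠ 0 := by
      intro h0
      rw [h0, zero_mul] at h3
      exact h0₁ h3.symm
    have h4 : coeffMap (IsLocalRing.residue A) Y =
        coeffMap (IsLocalRing.residue A) Y₁ *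
          (HahnSeries.C (IsLocalRing.residue A ⟨c⁻¹, hcA⟩) *
            coeffMap (IsLocalRing.residue A) Y₂)⁻¹ := by
      rw [eq_mul_inv_iff_mul_eq₀ (mul_ne_zero hC0 h0₂), ← h3]
      ring
    rw [h4]
    exact mul_mem hk₁ (inv_mem (mul_mem (C_mem_fullC _) hk₂))

end RedMem

/-! ### the reduction of the cuspidal class -/

section Main

variable (p : ℕ) [NeZero p]

theorem uqk_ne_zero (k : Type*) [Field k] : uq k p ≠ 0 :=
  right_ne_zero_of_mul_eq_one (Fermat.Agent.RED.BASE.DeltaMem19.uqInv_mul_uq p k)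

/-- **(E2ℓ), core form.** If `K' (p - 1) = ℓ m K` with `ℓ ∤ K'`, then `red (K • c₀) ≠ 0`. -/
theorem red_nsmul_c0_ne_zero (hp : p.Prime) {ℓ : ℕ} (hℓ : ℓ.Prime) (hℓ5 : 5 ≤ ℓ)
    (hℓp : ℓ ∣ p - 1) (A : ValuationSubring Qbar) (hA : A.LiesOverPrime ℓ)
    (h : ReductionInputsModL A p) {K K' m : ℕ} (hK' : ¬ ℓ ∣ K')
    (hrel : K' * (p - 1) = ℓ * m * K) :
    reductionModL A p (K • c0 p) ≠ 0 := by
  classical
  intro hz
  have : Fact ℓ.Prime := ⟨hℓ⟩
  have : CharP (IsLocalRing.ResidueField A) ℓ :=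
    Fermat.Agent.ES.KRON.KronInst10.charP_residueField A hℓ hA
  -- notation
  set r := placeReductionModL h with hr_def
  have hr : IsPlaceReductionAlong A (IsLocalRing.residue A) p r :=
    isPlaceReductionModL_placeReductionModL h
  have hgen : PrincipalGeneratedByIntegral A (IsLocalRing.residue A) p := h.choose_spec.2
  have hdiv := FbarFacts20.hasPrincipalDivisors_bar p
  have hdeg1 := FbarFacts20.deg_eq_one_bar p
  have hne := FbarFacts20.nonempty_place_bar p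
  -- `r_* (K • D₀)` is principal
  have hrD₀ : Finsupp.mapDomain r (K • cuspDiv p) ∈
      Divisor.principal (K := IsLocalRing.ResidueField A)
        (F := modularFunctionFieldFullC (IsLocalRing.ResidueField A) p) := by
    have h1 : K • c0 p = Pic0.mk (K • cuspDiv0 p) := rfl
    rw [h1, reductionModL_mk h] at hz
    have h2 := (QuotientAddGroup.eq_zero_iff _).mp hz
    rw [AddSubgroup.mem_addSubgroupOf] at h2
    exact h2
  obtain ⟨g, hg0, hgord⟩ := hrD₀
  -- the unit `u`, upstairs and downstairs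
  have hUS : coeffMap A.subtype (uq A p) = uq Qbar p :=
    Fermat.Agent.IG.AN.DeltaQuotExp19.coeffMap_uq _ p
  have hU : coeffMap A.subtype (uq A p) ∈ modularFunctionFieldBar p := by
    rw [hUS]
    exact (uP p).2
  have hUeq : (⟨_, hU⟩ : modularFunctionFieldBar p) = uP p := Subtype.ext hUS
  have hUR : coeffMap (IsLocalRing.residue A) (uq A p) = uq (IsLocalRing.ResidueField A) p :=
    Fermat.Agent.IG.AN.DeltaQuotExp19.coeffMap_uq _ p
  have hU0 : coeffMap (IsLocalRing.residue A) (uq A p) ≠ 0 := by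
    rw [hUR]
    exact uqk_ne_zero p _
  have hUk : coeffMap (IsLocalRing.residue A) (uq A p) ∈
      modularFunctionFieldFullC (IsLocalRing.ResidueField A) p :=
    red_mem_fullC p A hgen _ hU hU0
  -- lift of `g~`
  obtain ⟨G₁, G₂, hG₁, hG₂, hGk₁, hGk₂, hG0₁, hG0₂, hgG⟩ :=
    LiftRatio2.exists_lift_ratio_modL A p (g : LaurentSeries (IsLocalRing.ResidueField A)) g.2
      (fun h0 => hg0 (Subtype.ext h0))
  -- the two integral functions `P = u^K' G₂^(ℓ m)`, `Q = G₁^(ℓ m)`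
  set e : ℕ := ℓ * m with he
  have hUK : coeffMap A.subtype (uq A p ^ K') ∈ modularFunctionFieldBar p := pow_mem_bar p hU K'
  have hUK0 : coeffMap (IsLocalRing.residue A) (uq A p ^ K') ≠ 0 := by
    rw [map_pow]; exact pow_ne_zero _ hU0
  have hGe0₁ : coeffMap (IsLocalRing.residue A) (G₁ ^ e) ≠ 0 := by
    rw [map_pow]; exact pow_ne_zero _ hG0₁
  have hGe0₂ : coeffMap (IsLocalRing.residue A) (G₂ ^ e) ≠ 0 := by
    rw [map_pow]; exact pow_ne_zero _ hG0₂
  have hP : coeffMap A.subtype (uq A p ^ K' * G₂ ^ e) ∈ modularFunctionFieldBar p := by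
    rw [map_mul]; exact mul_mem hUK (pow_mem_bar p hG₂ e)
  have hQ : coeffMap A.subtype (G₁ ^ e) ∈ modularFunctionFieldBar p := pow_mem_bar p hG₁ e
  have hPk : coeffMap (IsLocalRing.residue A) (uq A p ^ K' * G₂ ^ e) ∈
      modularFunctionFieldFullC (IsLocalRing.ResidueField A) p := by
    rw [map_mul, map_pow, map_pow]; exact mul_mem (pow_mem hUk K') (pow_mem hGk₂ e)
  have hQk : coeffMap (IsLocalRing.residue A) (G₁ ^ e) ∈
      modularFunctionFieldFullC (IsLocalRing.ResidueField A) p := by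
    rw [map_pow]; exact pow_mem hGk₁ e
  have hP0 : coeffMap (IsLocalRing.residue A) (uq A p ^ K' * G₂ ^ e) ≠ 0 := by
    rw [map_mul]; exact mul_ne_zero hUK0 hGe0₂
  have hQ0 : coeffMap (IsLocalRing.residue A) (G₁ ^ e) ≠ 0 := hGe0₁
  -- divisors upstairs
  obtain ⟨DP, hDP, -⟩ := hdiv.exists_divisor _ (bar_ne_zero hP hP0)
  obtain ⟨DQ, hDQ, -⟩ := hdiv.exists_divisor _ (bar_ne_zero hQ hQ0)
  obtain ⟨DG₁, hDG₁, -⟩ := hdiv.exists_divisor _ (bar_ne_zero hG₁ hG0₁)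
  obtain ⟨DG₂, hDG₂, -⟩ := hdiv.exists_divisor _ (bar_ne_zero hG₂ hG0₂)
  have hrP := hr.2 _ hP hPk hP0 DP hDP
  have hrQ := hr.2 _ hQ hQk hQ0 DQ hDQ
  have hrG₁ := hr.2 _ hG₁ hGk₁ hG0₁ DG₁ hDG₁
  have hrG₂ := hr.2 _ hG₂ hGk₂ hG0₂ DG₂ hDG₂
  -- `DP - DQ = (K' (p-1)) • D₀ - e • (DG₁ - DG₂)`
  have hDPQ : DP - DQ = (K' * (p - 1)) • cuspDiv p - e • (DG₁ - DG₂) := by
    ext w
    rw [Finsupp.sub_apply, Finsupp.sub_apply, Finsupp.smul_apply, Finsupp.smul_apply,
      Finsupp.sub_apply, hDP w, hDQ w, hDG₁ w, hDG₂ w,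
      ord_bar_mul w hUK (pow_mem_bar p hG₂ e) hP hUK0 hGe0₂, ord_bar_pow p w hU K',
      ord_bar_pow p w hG₂ e, ord_bar_pow p w hG₁ e, hUeq, ord_uP_eq p hp w, nsmul_eq_mul,
      nsmul_eq_mul]
    push_cast [Nat.cast_sub hp.one_lt.le]
    ring
  -- `g = G₁~/G₂~` in `F~`
  have hgF : g = (⟨_, hGk₁⟩ : modularFunctionFieldFullC (IsLocalRing.ResidueField A) p) /
      ⟨_, hGk₂⟩ := Subtype.ext hgG
  have hGk0₁ : (⟨_, hGk₁⟩ : modularFunctionFieldFullC (IsLocalRing.ResidueField A) p) ≠ 0 :=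
    fun h0 => hG0₁ (congrArg Subtype.val h0)
  have hGk0₂ : (⟨_, hGk₂⟩ : modularFunctionFieldFullC (IsLocalRing.ResidueField A) p) ≠ 0 :=
    fun h0 => hG0₂ (congrArg Subtype.val h0)
  have hrelZ : ((K' * (p - 1) : ℕ) : ℤ) = (e : ℤ) * (K : ℤ) := by exact_mod_cast hrel
  -- `P~`, `Q~` have the same orders everywhere
  have hordPQ : ∀ Q' : Place (IsLocalRing.ResidueField A)
      (modularFunctionFieldFullC (IsLocalRing.ResidueField A) p),
      Q'.ord (⟨_, hPk⟩ : modularFunctionFieldFullC (IsLocalRing.ResidueField A) p) =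
        Q'.ord (⟨_, hQk⟩ : modularFunctionFieldFullC (IsLocalRing.ResidueField A) p) := by
    intro Q'
    have h1 : Finsupp.mapDomain r (DP - DQ) Q' = 0 := by
      have hg1 := hgord Q'
      rw [Finsupp.mapDomain_smul, Finsupp.smul_apply, nsmul_eq_mul, hgF, div_eq_mul_inv,
        Q'.ord_mul hGk0₁ (inv_ne_zero hGk0₂), Q'.ord_inv] at hg1
      rw [hDPQ, Finsupp.mapDomain_sub, Finsupp.mapDomain_smul, Finsupp.mapDomain_smul,
        Finsupp.mapDomain_sub, Finsupp.sub_apply, Finsupp.smul_apply, Finsupp.smul_apply,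
        Finsupp.sub_apply, hrG₁ Q', hrG₂ Q', nsmul_eq_mul, nsmul_eq_mul, hrelZ]
      linear_combination (e : ℤ) * hg1
    rw [Finsupp.mapDomain_sub, Finsupp.sub_apply, hrP Q', hrQ Q'] at h1
    linarith
  -- constant
  obtain ⟨c, hc⟩ := exists_const_of_ord_eq IsLocalRing.residue_surjective hdiv hdeg1 hne hr
    (uq A p ^ K' * G₂ ^ e) (G₁ ^ e) hP hQ hPk hQk hQ0 hordPQ
  -- the contradiction in `k((q))`
  rw [map_mul, map_mul, map_pow, map_pow, map_pow, hUR, ConstViaR20.coeffMap_C] at hc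
  have hfin : uq (IsLocalRing.ResidueField A) p ^ K' =
      HahnSeries.C (IsLocalRing.residue A c) *
        ((coeffMap (IsLocalRing.residue A) G₁ * (coeffMap (IsLocalRing.residue A) G₂)⁻¹) ^ m) ^ ℓ := by
    have hG2e : coeffMap (IsLocalRing.residue A) G₂ ^ e ≠ 0 := pow_ne_zero _ hG0₂
    rw [← pow_mul, mul_comm m ℓ, ← he, mul_pow, inv_pow, ← mul_assoc, ← hc,
      mul_inv_cancel_right₀ hG2e]
  exact uq_pow_ne_C_mul_pow ℓ hℓ5 p hp.two_le hℓp K' hK' _ _ hfin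

/-- `red (K • c₀) = 0 ⇒ ℓ ∣ K`  (`ℓ ≥ 5`, `ℓ ∣ p - 1`). -/
theorem dvd_of_red_nsmul_c0 (hp : p.Prime) {ℓ : ℕ} (hℓ : ℓ.Prime) (hℓ5 : 5 ≤ ℓ)
    (hℓp : ℓ ∣ p - 1) (A : ValuationSubring Qbar) (hA : A.LiesOverPrime ℓ)
    (h : ReductionInputsModL A p) {K : ℕ} (hK : reductionModL A p (K • c0 p) = 0) : ℓ ∣ K := by
  by_contra hnd
  obtain ⟨m, hm⟩ := hℓp
  refine red_nsmul_c0_ne_zero p hp hℓ hℓ5 ⟨m, hm⟩ A hA h (K := K) (K' := K) (m := m) hnd ?_ hK
  rw [hm]
  ring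

/-- **(E2ℓ)**: for `ℓ ≥ 5` dividing `n = (p - 1)/gcd(p - 1, 12)`, `red ((n / ℓ) • c₀) ≠ 0`. -/
theorem red_c0_lpart (hp : p.Prime) {ℓ : ℕ} (hℓ : ℓ.Prime) (hℓ5 : 5 ≤ ℓ)
    (hℓn : ℓ ∣ (p - 1) / Nat.gcd (p - 1) 12)
    (A : ValuationSubring Qbar) (hA : A.LiesOverPrime ℓ) (h : ReductionInputsModL A p) :
    reductionModL A p (((p - 1) / Nat.gcd (p - 1) 12 / ℓ) • c0 p) ≠ 0 := by
  have h1 : Nat.gcd (p - 1) 12 * ((p - 1) / Nat.gcd (p - 1) 12) = p - 1 :=
    Nat.mul_div_cancel' (Nat.gcd_dvd_left _ _)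
  have h2 : ℓ * ((p - 1) / Nat.gcd (p - 1) 12 / ℓ) = (p - 1) / Nat.gcd (p - 1) 12 :=
    Nat.mul_div_cancel' hℓn
  have hℓp : ℓ ∣ p - 1 := by
    rw [← h1]
    exact Dvd.dvd.mul_left hℓn _
  refine red_nsmul_c0_ne_zero p hp hℓ hℓ5 hℓp A hA h (K' := 1) (m := Nat.gcd (p - 1) 12) ?_ ?_
  · intro h1'
    have := Nat.le_of_dvd one_pos h1'
    omega
  · rw [one_mul]
    calc p - 1 = Nat.gcd (p - 1) 12 * ((p - 1) / Nat.gcd (p - 1) 12) := h1.symm
      _ = Nat.gcd (p - 1) 12 * (ℓ * ((p - 1) / Nat.gcd (p - 1) 12 / ℓ)) := by rw [h2]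
      _ = ℓ * Nat.gcd (p - 1) 12 * ((p - 1) / Nat.gcd (p - 1) 12 / ℓ) := by ring

end Main

end Fermat.Agent.MAZ.OggL24
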