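/-
MAZ free layer, bricks F-E0 / F-E2 / F-E2ℓ (helper24): COROLLARIES IN TERMS OF `addOrderOf (c0 p)`,
in the shapes consumed by `MAZ/Endgame88` (instantiation `s15_of_inputs_order`).

`N₀ := addOrderOf (c0 p)` satisfies `nOgg p ∣ N₀ ∣ p - 1` (`Ogg24.nOgg_dvd_addOrderOf`,
`Ogg24.addOrderOf_c0_dvd_pred`).

* `c0_ne_zero`              : `¬ (p - 1) ∣ 12 → c0 p ≠ 0`   (i.e. `p ∉ {2, 3, 5, 7, 13}`);
* `addOrderOf_c0_pos`       : `0 < addOrderOf (c0 p)`;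
* `red_div_nsmul_c0_ne_zero`: `ℓ ∣ N₀ ∣ p - 1`, `ℓ ≥ 5`  ⇒  `red_ℓ ((N₀ / ℓ) • c0) ≠ 0`;
* `red_order_part_ne_zero`  : the same with `N₀ = addOrderOf (c0 p)`;
* `exists_lpart_red_ne_zero`: the minimal (E2ℓ) form `∃ k, ℓ • (k • c0) = 0 ∧ red (k • c0) ≠ 0`.
-/
import Mathlib
import Fermat.Agent.MAZ.OggL24.Red

set_option autoImplicit false
set_option synthInstance.maxHeartbeats 400000
set_option linter.unusedSectionVars false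

noncomputable section

open AlgebraicCurve ModularCurve

namespace Fermat.Agent.MAZ.OggL24

open Fermat.Agent.MAZ.HeckeCusp89 Fermat.Agent.MAZ.Ogg24

local notation "Qbar" => AlgebraicClosure ℚ

variable (p : ℕ) [NeZero p]

/-- `nOgg p = 1` exactly when `p - 1 ∣ 12`. -/
theorem nOgg_ne_one (hp : p.Prime) (h12 : ¬ (p - 1) ∣ 12) : nOgg p ≠ 1 := by
  intro h1
  apply h12
  have hP : 0 < p - 1 := Nat.sub_pos_of_lt hp.one_lt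
  have hg : Nat.gcd (p - 1) 12 * nOgg p = p - 1 := Nat.mul_div_cancel' (Nat.gcd_dvd_left _ _)
  rw [h1, mul_one] at hg
  rw [← hg]
  exact Nat.gcd_dvd_right _ _

/-- The cuspidal class is not zero as soon as `p - 1 ∤ 12` (`p ∉ {2, 3, 5, 7, 13}`). -/
theorem c0_ne_zero (hp : p.Prime) (h12 : ¬ (p - 1) ∣ 12) : c0 p ≠ 0 := by
  intro h0
  have h1 : ((nOgg p : ℕ) : ℤ) ∣ 1 :=
    ogg_pic0 p hp (k := 1) (by rw [one_smul]; exact h0)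
  have h2 : nOgg p ∣ 1 := by exact_mod_cast h1
  exact nOgg_ne_one p hp h12 (Nat.dvd_one.mp h2)

theorem addOrderOf_c0_pos (hp : p.Prime) : 0 < addOrderOf (c0 p) := by
  have hP : 0 < p - 1 := Nat.sub_pos_of_lt hp.one_lt
  exact Nat.pos_of_dvd_of_pos (addOrderOf_c0_dvd_pred p hp) hP

/-- every prime dividing `(p - 1)/gcd(p - 1, 12)` divides the order of `c₀`. -/
theorem dvd_addOrderOf_c0 (hp : p.Prime) {r : ℕ} (hr : r ∣ (p - 1) / Nat.gcd (p - 1) 12) :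
    r ∣ addOrderOf (c0 p) :=
  hr.trans (nOgg_dvd_addOrderOf p hp)

/-- **(E2ℓ), order form**: for `ℓ ∣ N₀ ∣ p - 1`, `ℓ ≥ 5`: `red_ℓ ((N₀ / ℓ) • c₀) ≠ 0`. -/
theorem red_div_nsmul_c0_ne_zero (hp : p.Prime) {ℓ : ℕ} (hℓ : ℓ.Prime) (hℓ5 : 5 ≤ ℓ)
    (A : ValuationSubring Qbar) (hA : A.LiesOverPrime ℓ) (h : ReductionInputsModL A p)
    {N₀ : ℕ} (hN : N₀ ∣ p - 1) (hℓN : ℓ ∣ N₀) :
    reductionModL A p ((N₀ / ℓ) • c0 p) ≠ 0 := by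
  obtain ⟨t, ht⟩ := hN
  have hℓp : ℓ ∣ p - 1 := by
    rw [ht]
    exact Dvd.dvd.mul_right hℓN t
  have h2 : ℓ * (N₀ / ℓ) = N₀ := Nat.mul_div_cancel' hℓN
  refine red_nsmul_c0_ne_zero p hp hℓ hℓ5 hℓp A hA h (K' := 1) (m := t) ?_ ?_
  · intro h1
    have h3 := Nat.le_of_dvd one_pos h1
    omega
  · rw [one_mul, ht]
    calc N₀ * t = ℓ * (N₀ / ℓ) * t := by rw [h2]
      _ = ℓ * t * (N₀ / ℓ) := by ring

/-- **(E2ℓ)** for `N₀ = addOrderOf (c0 p)`. -/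
theorem red_order_part_ne_zero (hp : p.Prime) {ℓ : ℕ} (hℓ : ℓ.Prime) (hℓ5 : 5 ≤ ℓ)
    (A : ValuationSubring Qbar) (hA : A.LiesOverPrime ℓ) (h : ReductionInputsModL A p)
    (hℓN : ℓ ∣ addOrderOf (c0 p)) :
    reductionModL A p ((addOrderOf (c0 p) / ℓ) • c0 p) ≠ 0 :=
  red_div_nsmul_c0_ne_zero p hp hℓ hℓ5 A hA h (addOrderOf_c0_dvd_pred p hp) hℓN

/-- **(E2ℓ), minimal form** (shape of `Endgame88`): an element of `ℤ c₀` killed by `ℓ` whose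
reduction modulo `ℓ` is not zero. -/
theorem exists_lpart_red_ne_zero (hp : p.Prime) {ℓ : ℕ} (hℓ : ℓ.Prime) (hℓ5 : 5 ≤ ℓ)
    (A : ValuationSubring Qbar) (hA : A.LiesOverPrime ℓ) (h : ReductionInputsModL A p)
    (hℓN : ℓ ∣ addOrderOf (c0 p)) :
    ∃ k : ℕ, ℓ • (k • c0 p) = 0 ∧ reductionModL A p (k • c0 p) ≠ 0 := by
  refine ⟨addOrderOf (c0 p) / ℓ, ?_, red_order_part_ne_zero p hp hℓ hℓ5 A hA h hℓN⟩
  rw [← mul_nsmul', mul_comm, Nat.div_mul_cancel hℓN]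
  exact addOrderOf_nsmul_eq_zero (c0 p)

end Fermat.Agent.MAZ.OggL24
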